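import Mathlib
import Fermat.Agent.LT.T7.H1U.UpFactQSpec
import Fermat.Agent.LT.T7.H340.UpFactSpec

/-!
# Row LT, tower T7, node `H1U.CutOnUpQC` (registry row 2786, owner helper913): THE CUT -- Spec

OFF-MAIN.  Definitions and frozen Props only (the proved top is `CutOnUpQTop.lean`).  No hole,
nothing assumed.  ADDITIVE (new names only, suffix `913`).  Vocabulary:
`T7/H1U/UpFactQSpec.lean` (helper1, sha256 88d08be1) and `T7/H340/UpFactSpec.lean` (helper340),
byte-identical copies.  MIRROR of Part A of the cubic cut of helper340 (`CutOnUpC340`), leaf by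
leaf, for `F / ℚ` imaginary quadratic, `l = 2`.

    cutOnUpQC_of913 : H340.SuppOutUpC340 F → SuppUpQC913 F → CutOnOutUpQC913 F →
        H305.TorCommC305 F → H305.EllRegC305 ℚ F → H558.OutOpenC558 F → H558.CompContC558 F →
        H340.IsoContC340 → H1U.CutOnUpQC F                                        (VERBATIM)

## REUSED VERBATIM

`H340.SuppOutUpC340 F` (ONE field, any automorphism), `H305.TorCommC305 F` (closed, helper233),
`H305.EllRegC305 ℚ F`, `H558.OutOpenC558 F`, `H558.CompContC558 F`, `H340.IsoContC340`.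

## NEW

* `SuppUpQC913 F` (leaf [L]) = mirror of `H340.SuppUpC340` (twisted support): the SAME statement
  with `K = ℚ`, `IsImagQuad F`, `D.l = 2` instead of `D.l ≠ 2`, `TotCplx K`.  The proof is local
  at the finite places outside `S` (unramified) and does not see the infinite places: it ports
  from the proof of `H340.SuppUpC340` (helper159 `GoodUnitTw.lean`, `GoodUnitSplit.lean`).
* `CutOnOutUpQC913 F` (node [L-XL]) = mirror of `H340.CutOnOutUpC340` for `H1U.prodCutUpQ` and the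
  data `H1U.IsUpDatQ`: for `x' ∈ Out_{S'}` the integral over the twisted torus is `1`.

FALSITY CHECKS (helper913).  `SuppUpQC913`: as `H340.SuppUpC340`; at a split place `v ∉ S` the two
places over `v` are treated at once, at an inert place `F_w / ℚ_v` is unramified (`UnramOut305`,
`T₀ ⊆ S`).  `CutOnOutUpQC913`: `μT'` is the image of `μT` (`IsTorLinked305`), `ι(t) x' ∈ Out_{S'}`
iff `t ∈ Out_S`, the value of the cut-off at `ι(t) x'` is
`c_T⁻¹ ∏_{v ∈ S} bet_v(i_v(t_v) x'_{w0 v}) · βc((t_∞)_ℂ x'_∞)`; as a function of `t` this is the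
product cut-off DOWNSTAIRS of the local data `L'` = `L` with `βv v` replaced by
`g ↦ bet_v(i_v(g) x'_{w0 v})` and `βr` by `g ↦ βc(g_ℂ x'_∞)`, evaluated at `t · 1`; `L'` has the
measures of `L` (so `IsTorConstQ298` holds for `L'`) and its cut-off functions are normalised:
inert `v`: `i_v` maps the centraliser of `γ_v` onto the twisted centraliser of `δ_w` and the
normalised Haar measures correspond; split `v`: `bet_v(i_0(g) z) = L.βv v (g · i_0⁻¹ z)`;
infinity: the clause of `IsArchAtQ`.  So the value is `1` by the closed leaf `H751.CutOnOutQC751`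
at `x' = 1`.
-/

set_option autoImplicit false

open AutomorphicForm IsDedekindDomain NumberField MeasureTheory
open scoped ComplexConjugate

noncomputable section

namespace Fermat.Agent.LT.T7.H913

open Fermat.Agent.LT.H556 Fermat.Agent.LT.H556.A0 Fermat.Agent.LT.T7 Fermat.Agent.LT.T7.H305
open Fermat.Agent.LT.T7.MQ298 Fermat.Agent.LT.T7.H1U

attribute [local instance] Fermat.Agent.LT.T5.instMeasurableSpaceG

variable (F : Type) [Field F] [NumberField F]

/-- **LEAF CU.1 = SUPP-UP over `ℚ`** (the twisted form of `SuppDownC305`; mirror of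
`H340.SuppUpC340`).  If `N δ = γ` is good outside `S`, `δ` is integral outside `S'`, the places
outside `S` are unramified and `x⁻¹ δ σ(x)` is in `GL₂(𝒪_w)` for `w ∉ S'`, then `x = t x'` with
`t ∈ T_𝔸(δ)` and `x'_w ∈ GL₂(𝒪_w)` for `w ∉ S'`. -/
def SuppUpQC913 : Prop :=
  T6.T6Out → IsImagQuad F →
  ∀ D : CompData ℚ F, IsCompData D → IsCycExt ℚ F D.l → D.l = 2 →
    ∀ (T₀ : Finset (HeightOneSpectrum (𝓞 ℚ))), UnramOut305 (K' := F) T₀ →
    ∀ (S : Finset (HeightOneSpectrum (𝓞 ℚ))) (S' : Finset (HeightOneSpectrum (𝓞 F))),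
      T₀ ⊆ S → IsOver305 S S' →
    ∀ (δ : GL (Fin 2) F) (γ : GL (Fin 2) ℚ), T6.IsEll γ →
      D.s.normUpTo D.l δ = Matrix.GeneralLinearGroup.map (algebraMap ℚ F) γ →
      GoodOut305 S γ → IntOut305 S' δ →
    ∀ x : G F, OutT305 S' (x⁻¹ * T5.ratG δ * D.s.onG x) →
      ∃ t : G F, t ∈ tA305 D.s δ ∧ OutT305 S' (t⁻¹ * x)

/-- **NODE CU.2 = CUT-ON-OUT-UP over `ℚ`** (mirror of `H340.CutOnOutUpC340`).  For
`x' ∈ Out_{S'}`: `∫_{T_𝔸(δ)} β'(t x') dμT'(t) = 1` for the cut-off `β' = H1U.prodCutUpQ S' S cT U`.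
See the header. -/
def CutOnOutUpQC913 : Prop :=
  T6.T6Out → IsImagQuad F →
  ∀ D : CompData ℚ F, IsCompData D → IsCycExt ℚ F D.l → D.l = 2 →
    ∀ ι : Adl ℚ →+* Adl F, IsAdeleBase305 D.s D.l ι →
    ∀ μc : @Measure (GL (Fin 2) ℂ) (borel _), @Measure.IsHaarMeasure _ _ _ (borel _) μc →
    ∀ (T₀ : Finset (HeightOneSpectrum (𝓞 ℚ))), UnramOut305 (K' := F) T₀ →
    ∀ (n : HeightOneSpectrum (𝓞 F) → ℕ) (m : HeightOneSpectrum (𝓞 ℚ) → ℕ)
      (S : Finset (HeightOneSpectrum (𝓞 ℚ))) (S' : Finset (HeightOneSpectrum (𝓞 F))),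
      T₀ ⊆ S → IsOver305 S S' →
    ∀ (φ₀ : ∀ w : HeightOneSpectrum (𝓞 F), GL (Fin 2) (w.adicCompletion F) → ℂ)
      (Φ : InfinitePlace F → GL (Fin 2) ℂ → ℂ),
    ∀ (δ : GL (Fin 2) F) (γ : GL (Fin 2) ℚ), T6.IsEll γ →
      D.s.normUpTo D.l δ = Matrix.GeneralLinearGroup.map (algebraMap ℚ F) γ →
      GoodOut305 S γ → IntOut305 S' δ →
    ∀ (μT : @Measure (tA305 (T5.AdelicAut.id ℚ) γ) (borel _))
      (μT' : @Measure (tA305 D.s δ) (borel _)),
      @Measure.IsHaarMeasure _ _ _ (borel _) μT →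
      @Measure.IsHaarMeasure _ _ _ (borel _) μT' →
      IsTorLinked305 ι D.s δ γ μT μT' →
    ∀ (L : LocDataQ298 γ) (cT : ℝ), IsLocDataQ298 m L → 0 < cT → IsTorConstQ298 γ μT L cT →
    ∀ (U : UpDatQ F) (J : HeightOneSpectrum (𝓞 ℚ) → ℂ) (Jc : ℤ → ℂ),
      IsUpDatQ D n m φ₀ Φ δ L μc S U J Jc →
    ∀ x' : G F, OutT305 S' x' →
      @integral _ _ _ _ (borel _) μT'
        (fun t : tA305 D.s δ => prodCutUpQ S' S cT U ((t : G F) * x')) = 1

/-! ## Appendix: the equation lemmas of the definitions of this file are realised HERE -/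

theorem eqns_realised_cutOnUpQ913 : True := by
  have _a1 := @SuppUpQC913.eq_1
  have _a2 := @SuppUpQC913.eq_def
  have _a3 := @SuppUpQC913.eq_unfold
  have _b1 := @CutOnOutUpQC913.eq_1
  have _b2 := @CutOnOutUpQC913.eq_def
  have _b3 := @CutOnOutUpQC913.eq_unfold
  trivial

end Fermat.Agent.LT.T7.H913

end
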