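import Mathlib
import Fermat.Agent.LT.T7.H913.CutOnUpQSpec
import Fermat.Agent.LT.T7.H558.FactDownSpec

/-!
# Row LT, tower T7, node `H1U.CutOnUpQC` (registry row 2786, owner helper913): the proved top

OFF-MAIN.  Complete proof, nothing assumed.

    cutOnUpQC_of913 : H340.SuppOutUpC340 F → SuppUpQC913 F → CutOnOutUpQC913 F →
        H305.TorCommC305 F → H305.EllRegC305 ℚ F → H558.OutOpenC558 F → H558.CompContC558 F →
        H340.IsoContC340 → H1U.CutOnUpQC F

Mirror of `T7/H558/FactDownTopA.lean` (helper558) and `T7/H751/FactDownQTopA.lean` (helper751).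
-/

set_option autoImplicit false

open AutomorphicForm IsDedekindDomain NumberField MeasureTheory
open scoped ComplexConjugate

noncomputable section

namespace Fermat.Agent.LT.T7.H913

open Fermat.Agent.LT.H556 Fermat.Agent.LT.H556.A0 Fermat.Agent.LT.T7 Fermat.Agent.LT.T7.H305
open Fermat.Agent.LT.T7.MQ298 Fermat.Agent.LT.T7.H1U

attribute [local instance] Fermat.Agent.LT.T5.instMeasurableSpaceG

variable {F : Type} [Field F] [NumberField F]

/-- The continuous factor of the product cut-off upstairs over `ℚ`. -/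
def prodCutUpCore913 (S : Finset (HeightOneSpectrum (𝓞 ℚ))) (cT : ℝ) (U : UpDatQ F)
    (y : G F) : ℝ :=
  cT⁻¹ * (∏ v ∈ S, U.bet v (finGL305 (U.w0 v) y)) * U.βc (infGL305 U.winf y)

theorem prodCutUp_eq_indicator913 (S' : Finset (HeightOneSpectrum (𝓞 F)))
    (S : Finset (HeightOneSpectrum (𝓞 ℚ))) (cT : ℝ) (U : UpDatQ F) :
    prodCutUpQ S' S cT U
      = Set.indicator {y : G F | OutT305 S' y} (prodCutUpCore913 S cT U) := by
  classical
  funext y
  by_cases h : OutT305 S' y
  · rw [Set.indicator_of_mem (show y ∈ {y : G F | OutT305 S' y} from h)]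
    change (if OutT305 S' y then _ else _) = _
    rw [if_pos h]
    rfl
  · rw [Set.indicator_of_notMem (show y ∉ {y : G F | OutT305 S' y} from h)]
    change (if OutT305 S' y then _ else _) = _
    rw [if_neg h]

/-- The factor of the cut-off at a place of `S` is continuous. -/
theorem continuous_bet913 (hCont : H558.CompContC558 F) (hIso : H340.IsoContC340)
    {D : CompData ℚ F} {n : HeightOneSpectrum (𝓞 F) → ℕ} {m : HeightOneSpectrum (𝓞 ℚ) → ℕ}
    {φ₀ : ∀ w : HeightOneSpectrum (𝓞 F), GL (Fin 2) (w.adicCompletion F) → ℂ}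
    {δ : GL (Fin 2) F} {γ : GL (Fin 2) ℚ} {L : LocDataQ298 γ} (hL : IsLocDataQ298 m L)
    {v : HeightOneSpectrum (𝓞 ℚ)} {w0 : HeightOneSpectrum (𝓞 F)}
    {β' : GL (Fin 2) (w0.adicCompletion F) → ℝ} {J : ℂ}
    (h : IsInertAtQ D n φ₀ δ v w0 β' J ∨ IsSplitAtQ D n m φ₀ δ L v w0 β' J) :
    Continuous (fun y : G F => β' (finGL305 w0 y)) := by
  rcases h with h | h
  · obtain ⟨e, i, sw, μ', μt', -, -, -, -, -, -, -, hcut, -⟩ := h
    exact hcut.1.comp (hCont.1 w0)
  · obtain ⟨hl, w, i, hw0, -, heq, -, -, -, -, hval, -⟩ := h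
    have hfun : (fun y : G F => β' (finGL305 w0 y))
        = fun y : G F => L.βv v (Matrix.GeneralLinearGroup.map
          (((i 0).symm : (w 0).adicCompletion F ≃+* _) :
            (w 0).adicCompletion F →+* v.adicCompletion ℚ) (finGL305 (w 0) y)) :=
      funext heq
    rw [hfun]
    have hv : ∀ x : (w 0).adicCompletion F,
        Valued.v ((((i 0).symm : (w 0).adicCompletion F ≃+* _) :
            (w 0).adicCompletion F →+* v.adicCompletion ℚ) x) = Valued.v x ^ 1 := by
      intro x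
      have := hval 0 ((i 0).symm x)
      rw [pow_one]
      simpa using this.symm
    have hc := (hIso ((w 0).adicCompletion F) (v.adicCompletion ℚ) 1
      (((i 0).symm : (w 0).adicCompletion F ≃+* _) :
        (w 0).adicCompletion F →+* v.adicCompletion ℚ) one_pos hv).2
    exact (hL.cut v).1.comp (hc.comp (hCont.1 (w 0)))

/-- The factor of the cut-off at a place of `S` is non-negative. -/
theorem bet_nonneg913
    {D : CompData ℚ F} {n : HeightOneSpectrum (𝓞 F) → ℕ} {m : HeightOneSpectrum (𝓞 ℚ) → ℕ}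
    {φ₀ : ∀ w : HeightOneSpectrum (𝓞 F), GL (Fin 2) (w.adicCompletion F) → ℂ}
    {δ : GL (Fin 2) F} {γ : GL (Fin 2) ℚ} {L : LocDataQ298 γ} (hL : IsLocDataQ298 m L)
    {v : HeightOneSpectrum (𝓞 ℚ)} {w0 : HeightOneSpectrum (𝓞 F)}
    {β' : GL (Fin 2) (w0.adicCompletion F) → ℝ} {J : ℂ}
    (h : IsInertAtQ D n φ₀ δ v w0 β' J ∨ IsSplitAtQ D n m φ₀ δ L v w0 β' J) (y : G F) :
    0 ≤ β' (finGL305 w0 y) := by
  rcases h with h | h
  · obtain ⟨e, i, sw, μ', μt', -, -, -, -, -, -, -, hcut, -⟩ := h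
    exact hcut.2.1 _
  · obtain ⟨hl, w, i, hw0, -, heq, -, -, -, -, hval, -⟩ := h
    rw [heq y]
    exact (hL.cut v).2.1 _

/-- Right translation by an element of the (commutative) twisted torus does not change the
orbital average. -/
theorem torus_transl913 {s : T5.AdelicAut F} {δ : GL (Fin 2) F}
    (hcomm : ∀ x ∈ tA305 s δ, ∀ y ∈ tA305 s δ, x * y = y * x)
    (μT : @Measure (tA305 s δ) (borel _))
    (hμT : @Measure.IsHaarMeasure _ _ _ (borel _) μT) (β : G F → ℝ) (t : G F)
    (ht : t ∈ tA305 s δ) (x : G F) :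
    @integral _ _ _ _ (borel _) μT (fun t₁ : tA305 s δ => β ((t₁ : G F) * (t * x)))
      = @integral _ _ _ _ (borel _) μT (fun t₁ : tA305 s δ => β ((t₁ : G F) * x)) := by
  letI : MeasurableSpace (tA305 s δ) := borel _
  haveI : BorelSpace (tA305 s δ) := ⟨rfl⟩
  haveI := hμT
  have h := integral_mul_left_eq_self (μ := μT)
    (fun t₁ : tA305 s δ => β ((t₁ : G F) * x)) (⟨t, ht⟩ : tA305 s δ)
  rw [← h]
  congr 1
  funext t₁
  have hc : (t₁ : G F) * t = t * (t₁ : G F) := hcomm _ t₁.2 _ ht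
  change β ((t₁ : G F) * (t * x)) = β ((t * (t₁ : G F)) * x)
  rw [← mul_assoc, hc]

/-- **THE TOP OF THE NODE `H1U.CutOnUpQC`.** -/
theorem cutOnUpQC_of913 (hSO : H340.SuppOutUpC340 F) (hSU : SuppUpQC913 F)
    (hCut : CutOnOutUpQC913 F) (hTc : TorCommC305 F) (hEll : EllRegC305 ℚ F)
    (hOpen : H558.OutOpenC558 F) (hCont : H558.CompContC558 F) (hIso : H340.IsoContC340) :
    H1U.CutOnUpQC F := by
  intro hT6 hF D hD hcyc hl ι hι μc hμc T₀ hT₀ n m S S' hTS hSS' φ₀ Φ δ γ hγ hN hgood hint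
    μT μT' hμT hμT' hlink L cT hL hcT hTor U J Jc hU
  refine ⟨?_, ?_, ?_⟩
  · rw [prodCutUp_eq_indicator913]
    haveI : BorelSpace (G F) := ⟨rfl⟩
    have hcore : Continuous (prodCutUpCore913 S cT U) := by
      unfold prodCutUpCore913
      refine (continuous_const.mul (continuous_finset_prod _ fun v hv => ?_)).mul ?_
      · exact continuous_bet913 hCont hIso hL (hU.1 v hv)
      · exact hU.2.1.comp (hCont.2 U.winf)
    exact hcore.measurable.indicator (hOpen S').measurableSet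
  · intro y
    classical
    rw [prodCutUp_eq_indicator913]
    refine Set.indicator_nonneg (fun y _ => ?_) y
    unfold prodCutUpCore913
    refine mul_nonneg (mul_nonneg (inv_nonneg.2 hcT.le) (Finset.prod_nonneg fun v hv => ?_)) ?_
    · exact bet_nonneg913 hL (hU.1 v hv) y
    · exact hU.2.2.1 _
  · intro x hx
    have h1 : OutT305 S' (x⁻¹ * T5.ratG δ * D.s.onG x) :=
      hSO D.R'.r hD.frame'.ray D.s S' φ₀ Φ δ x hx
    obtain ⟨t, ht, hout⟩ := hSU hT6 hF D hD hcyc hl T₀ hT₀ S S' hTS hSS' δ γ hγ hN hgood hint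
      x h1
    have hone := hCut hT6 hF D hD hcyc hl ι hι μc hμc T₀ hT₀ n m S S' hTS hSS' φ₀ Φ δ γ hγ hN
      hgood hint μT μT' hμT hμT' hlink L cT hL hcT hTor U J Jc hU (t⁻¹ * x) hout
    have hreg := hEll D hD γ hγ
    have hcomm := hTc D.R' hD.frame' D.s D.l D.k D.𝔑 hD.cyc hD.aut δ
      (by rw [hN]; exact hreg.1)
    have htr := torus_transl913 hcomm μT' hμT' (prodCutUpQ S' S cT U) t ht (t⁻¹ * x)
    rw [mul_inv_cancel_left] at htr
    rw [htr]
    exact hone

end Fermat.Agent.LT.T7.H913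

end
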