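import Mathlib
import Fermat.Agent.LT.T7.H913.CutOnUpQSpec
import Fermat.Agent.LT.T7.H751.FactDownQSpec
import Fermat.Agent.LT.T7.H385.CutOnOutQ
import Fermat.Agent.LT.T7.H269.CutOnOutUp
import Fermat.Agent.LT.T7.H276.InertTor
import Fermat.Agent.LT.T7.H341.UpInertTop
import Fermat.Agent.LT.T7.H159.RestrGL
import Fermat.Agent.LT.T7.H543.LocCut
import Fermat.Agent.LT.T7.H1G.Fixed

/-!
# Row LT, tower T7, node `H1U.CutOnUpQC` (registry row 2786, owner helper913):
# the node CU.2 `CutOnOutUpQC913` PROVED from closed assets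

OFF-MAIN.  ADDITIVE (new names only, suffix `913`).  Nothing assumed beyond the named hypotheses,
which are CLOSED leaves of the downstairs cut (helper558 / helper751):

    cutOnOutUpQC_of913 : H558.HaarSigmaC558 ℚ → H751.HaarSigmaRC751 → H558.CompContC558 ℚ →
        H558.CompContC558 F → H751.ReContQC751 → CutOnOutUpQC913 F                   (VERBATIM)

Proof (port of helper269 `cutOnOutUpC269`, the cubic mirror).  (1) `IsTorLinked305`: the integral
over `T_𝔸(δ)` is the integral over `T_𝔸(γ)` of `t ↦ prodCutUpQ (GL₂(ι)(t) x')`.  (2)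
`GL₂(ι)(t) x' ∈ Out_{S'} ⟺ t ∈ Out_S`.  (3) For `t ∈ Out_S` the integrand is
`c_T⁻¹ ∏_{v ∈ S} a_v(t_v) · b(t_∞)`; (4) the abstract Fubini computation of helper385
(`integral_cut_absQ385`) with `IsTorConstQ298`; the local integrals are `1`:

* inert `v` (`IsInertAtQ`): the local maps of `ι` and of the datum agree (helper1
  `eq_of_val_of_rat_H1G`); the normalised Haar measure `μt'` of the twisted centraliser of `δ_w`
  is the image of `L.μt v` (`inertLink913`: helper276 `inertTorC276` gives SOME normalised Haar
  measure which is the image; normalised Haar measures of the twisted centraliser are unique,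
  `locTor_unique913`: the group is locally compact and second countable); `IsLocCut305` upstairs;
* split `v` (`IsSplitAtQ`): `bet_v(y_{w0}) = L.βv v (i_0⁻¹ y_{w 0})` (the clause of the datum,
  applied at the points `GL₂(ι)(t) x'`), `IsLocCut305` downstairs;
* infinity (`IsArchAtQ`): `(ι t)_∞ = (t_∞)_ℂ` (the place of `ℚ` is real: `conj` is trivial), the
  normalisation clause of the datum.
-/

set_option autoImplicit false
set_option linter.style.haveILetI false
set_option linter.unusedSectionVars false
set_option linter.unusedVariables false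

open AutomorphicForm IsDedekindDomain NumberField MeasureTheory
open scoped ComplexConjugate

noncomputable section

namespace Fermat.Agent.LT.T7.H913

open Fermat.Agent.LT Fermat.Agent.LT.H556 Fermat.Agent.LT.H556.A0 Fermat.Agent.LT.T7
open Fermat.Agent.LT.T7.H305 Fermat.Agent.LT.T7.MQ298 Fermat.Agent.LT.T7.H1U

attribute [local instance] Fermat.Agent.LT.T5.instMeasurableSpaceG

/-! ## 1. Normalised Haar measures of the twisted centraliser are unique -/

/-- Two normalised Haar measures of the twisted centraliser (completion of a number field at a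
finite place) are equal. -/
theorem locTor_unique913 {K' : Type} [Field K'] [NumberField K'] (w : HeightOneSpectrum (𝓞 K'))
    {q : ℕ} (h : T6.IsLocalField (w.adicCompletion K') q)
    (sw : w.adicCompletion K' ≃+* w.adicCompletion K')
    (hs : ∀ y : w.adicCompletion K', Valued.v (sw y) = Valued.v y)
    (δ : GL (Fin 2) (w.adicCompletion K'))
    (μ₁ μ₂ : @Measure (T6.twCentSub (T6.glAut sw) δ) (borel _))
    (h₁ : IsLocTor305 sw δ μ₁) (h₂ : IsLocTor305 sw δ μ₂) : μ₁ = μ₂ := by
  letI : MeasurableSpace (T6.twCentSub (T6.glAut sw) δ) := borel _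
  haveI : BorelSpace (T6.twCentSub (T6.glAut sw) δ) := ⟨rfl⟩
  haveI : LocallyCompactSpace (GL (Fin 2) (w.adicCompletion K')) :=
    T6.H420.locallyCompactSpace_GL h
  haveI : SecondCountableTopology (GL (Fin 2) (w.adicCompletion K')) :=
    H159.secondCountable_GLv159 K' w
  have hcl := H543C.isClosed_twCent543 h sw hs δ
  haveI : LocallyCompactSpace (T6.twCentSub (T6.glAut sw) δ) :=
    hcl.isClosedEmbedding_subtypeVal.locallyCompactSpace
  haveI : SecondCountableTopology (T6.twCentSub (T6.glAut sw) δ) :=
    Topology.IsInducing.subtypeVal.secondCountableTopology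
  haveI : μ₁.IsHaarMeasure := h₁.1
  haveI : μ₂.IsHaarMeasure := h₂.1
  have e := Measure.isMulLeftInvariant_eq_smul μ₁ μ₂
  have hc : Measure.haarScalarFactor μ₁ μ₂ = 1 := by
    have e1 := h₁.2
    rw [e, Measure.smul_apply, h₂.2] at e1
    have e2 : ((Measure.haarScalarFactor μ₁ μ₂ : NNReal) : ENNReal) = 1 := by
      rw [ENNReal.smul_def, smul_eq_mul, mul_one] at e1
      exact e1
    exact_mod_cast e2
  rw [e, hc, one_smul]

/-! ## 2. The link of the local torus measures at a place with one place over it -/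

/-- The normalised Haar measure of the twisted centraliser of `δ` is the image of the normalised
Haar measure of the centraliser of `γ`, `N δ = i(γ)` regular. -/
theorem inertLink913 {K K' : Type} [Field K] [NumberField K] [Field K'] [NumberField K']
    (hT6 : T6.T6Out) (v : HeightOneSpectrum (𝓞 K)) (w : HeightOneSpectrum (𝓞 K')) (l e : ℕ)
    (i : v.adicCompletion K →+* w.adicCompletion K')
    (sw : w.adicCompletion K' ≃+* w.adicCompletion K')
    (hext : T6.IsLocalExt (v.adicCompletion K) (w.adicCompletion K') l e i sw)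
    (δ : GL (Fin 2) (w.adicCompletion K')) (γ : GL (Fin 2) (v.adicCompletion K))
    (hγ : T6.IsReg γ) (hN : T6.twNorm sw l δ = Matrix.GeneralLinearGroup.map i γ)
    (μt : @Measure (T6.twCentSub (T6.glAut (RingEquiv.refl (v.adicCompletion K))) γ) (borel _))
    (μt' : @Measure (T6.twCentSub (T6.glAut sw) δ) (borel _))
    (hμt : IsLocTor305 (RingEquiv.refl (v.adicCompletion K)) γ μt)
    (hμt' : IsLocTor305 sw δ μt')
    (A : Set (GL (Fin 2) (w.adicCompletion K'))) (hA : @MeasurableSet _ (borel _) A) :
    μt' {t | (t : GL (Fin 2) (w.adicCompletion K')) ∈ A}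
      = μt {t | Matrix.GeneralLinearGroup.map i (t : GL (Fin 2) (v.adicCompletion K)) ∈ A} := by
  have hTw : T6.TwCentC := hT6.2.2.1
  have hIL : T6.InstLocalC := hT6.2.2.2.2.2.1
  have hlf : T6.IsLocalField (w.adicCompletion K') (Ideal.absNorm w.asIdeal) := hIL K' w
  obtain ⟨μt'', htor, hlink⟩ := H276.inertTorC276 hTw (v.adicCompletion K) (w.adicCompletion K')
    l e i sw hext δ γ hγ hN μt hμt
  have hu := locTor_unique913 w hlf sw hext.val_s δ μt' μt'' hμt' htor
  rw [hu]
  exact hlink A hA

/-! ## 3. The infinite place -/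

/-- The component of `ι x` at an infinite place of `F` is the real component of `x`. -/
theorem infHom_iota913 {F : Type} [Field F] [NumberField F] {s : T5.AdelicAut F} {l : ℕ}
    {ι : Adl ℚ →+* Adl F} (hι : IsAdeleBase305 s l ι) (w' : InfinitePlace F) (x : Adl ℚ) :
    T5.infHom w' (ι x) = algebraMap ℝ ℂ (reHomQ298 x) := by
  have h0 : ∀ v₀ : InfinitePlace ℚ, T5.infHom v₀ x = algebraMap ℝ ℂ (reHomQ298 x) := by
    intro v₀
    have hv : v₀ = Rat.infinitePlace := Subsingleton.elim _ _
    subst hv
    exact (InfinitePlace.Completion.extensionEmbeddingOfIsReal_apply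
      Rat.isReal_infinitePlace _).symm
  rcases hι.inf w' with h | h
  · rw [h, h0]
  · rw [h, h0]
    exact Complex.conj_ofReal _

/-! ## 4. The node -/

/-- **NODE CU.2 `CutOnOutUpQC913`** from closed leaves of the cut downstairs. -/
theorem cutOnOutUpQC_of913 (F : Type) [Field F] [NumberField F]
    (hHS : H558.HaarSigmaC558 ℚ) (hHSR : H751.HaarSigmaRC751)
    (hCK : H558.CompContC558 ℚ) (hCK' : H558.CompContC558 F) (hRe : H751.ReContQC751) :
    CutOnOutUpQC913 F := by
  intro hT6 hIQ D hD hcyc hl2 ι hι μc hμc T₀ hT₀ n m S S' hTS hOver φ₀ Φ δ γ hell hN hgood hint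
    μT μT' hμT hμT' hlink L cT hL hcT hconst U J Jc hU x' hx'
  classical
  letI iT : MeasurableSpace (tA305 (T5.AdelicAut.id ℚ) γ) := borel _
  haveI bT : BorelSpace (tA305 (T5.AdelicAut.id ℚ) γ) := ⟨rfl⟩
  letI iT' : MeasurableSpace (tA305 D.s δ) := borel _
  haveI bT' : BorelSpace (tA305 D.s δ) := ⟨rfl⟩
  haveI bG' : BorelSpace (G F) := ⟨rfl⟩
  letI iv : ∀ v : HeightOneSpectrum (𝓞 ℚ), MeasurableSpace (GL (Fin 2) (v.adicCompletion ℚ)) :=
    fun _ => borel _
  haveI bv : ∀ v : HeightOneSpectrum (𝓞 ℚ), BorelSpace (GL (Fin 2) (v.adicCompletion ℚ)) :=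
    fun _ => ⟨rfl⟩
  letI iw : ∀ w : HeightOneSpectrum (𝓞 F), MeasurableSpace (GL (Fin 2) (w.adicCompletion F)) :=
    fun _ => borel _
  haveI bw : ∀ w : HeightOneSpectrum (𝓞 F), BorelSpace (GL (Fin 2) (w.adicCompletion F)) :=
    fun _ => ⟨rfl⟩
  letI ic : MeasurableSpace (GL (Fin 2) ℂ) := borel _
  haveI bc : BorelSpace (GL (Fin 2) ℂ) := ⟨rfl⟩
  letI ir : MeasurableSpace (GL (Fin 2) ℝ) := borel _
  haveI br : BorelSpace (GL (Fin 2) ℝ) := ⟨rfl⟩
  letI itv : ∀ v : HeightOneSpectrum (𝓞 ℚ), MeasurableSpace
      (T6.twCentSub (T6.glAut (RingEquiv.refl (v.adicCompletion ℚ))) (locG305 v γ)) :=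
    fun _ => borel _
  haveI btv : ∀ v : HeightOneSpectrum (𝓞 ℚ), BorelSpace
      (T6.twCentSub (T6.glAut (RingEquiv.refl (v.adicCompletion ℚ))) (locG305 v γ)) :=
    fun _ => ⟨rfl⟩
  letI itc : MeasurableSpace (cent305 (reGLQ298 (T5.ratG γ))) := borel _
  haveI btc : BorelSpace (cent305 (reGLQ298 (T5.ratG γ))) := ⟨rfl⟩
  have hιc : Continuous (Matrix.GeneralLinearGroup.map (n := Fin 2) ι) :=
    H269.continuous_glMap_cu269 ι hι.cont
  have hreg : ∀ v : HeightOneSpectrum (𝓞 ℚ), T6.IsReg (locG305 v γ) :=
    fun v => UD341.isReg_glMap341 _ hell.1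
  -- the local statements at the places of `S`
  have hloc : ∀ v ∈ S, (Continuous fun y : G F => U.bet v (finGL305 (U.w0 v) y)) ∧
      ∃ a : GL (Fin 2) (v.adicCompletion ℚ) → ℝ, Measurable a ∧
        (∫ y, a y ∂(Measure.map Subtype.val (L.μt v))) = 1 ∧
        ∀ t : G ℚ, U.bet v (finGL305 (U.w0 v) (Matrix.GeneralLinearGroup.map ι t * x'))
          = a (finGL305 v t) := by
    intro v hv
    rcases hU.1 v hv with hin | hsp
    · -- ONE place over `v`
      obtain ⟨e, i, sw, μ', μt', hvw, huniq, hri, hrs, hext, hμ', htor, hcut, hJ⟩ := hin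
      obtain ⟨e', i', he', hri', hval', hio'⟩ := hι.fin v (U.w0 v) hvw
      have hii : ∀ c, i' c = i c :=
        H1G.eq_of_val_of_rat_H1G v i' i e' e he' hext.e_pos hval' hext.val_i
          (fun y => by rw [hri', hri])
      have hci : Continuous (Matrix.GeneralLinearGroup.map (n := Fin 2) i) :=
        H269.continuous_glMap_cu269 _
          (H269.continuous_of_val_cu269 _ e hext.e_pos hext.val_i)
      have hnorm : T6.twNorm sw D.l (locG305 (U.w0 v) δ)
          = Matrix.GeneralLinearGroup.map i (locG305 v γ) := by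
        rw [← UD341.locG_normUpTo341 D.s (U.w0 v) sw hrs δ D.l, hN]
        show Matrix.GeneralLinearGroup.map (algebraMap F ((U.w0 v).adicCompletion F))
            (Matrix.GeneralLinearGroup.map (algebraMap ℚ F) γ)
          = Matrix.GeneralLinearGroup.map i
            (Matrix.GeneralLinearGroup.map (algebraMap ℚ (v.adicCompletion ℚ)) γ)
        rw [UD341.glMap_glMap341, UD341.glMap_glMap341]
        exact UD341.glMap_congr341 (fun x => (hri x).symm) _
      have hm : Measurable (fun y : GL (Fin 2) (v.adicCompletion ℚ) =>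
          U.bet v (Matrix.GeneralLinearGroup.map i y * finGL305 (U.w0 v) x')) :=
        (hcut.1.comp (hci.mul continuous_const)).measurable
      refine ⟨hcut.1.comp (hCK'.1 _), fun y =>
        U.bet v (Matrix.GeneralLinearGroup.map i y * finGL305 (U.w0 v) x'), hm, ?_, ?_⟩
      · rw [integral_map continuous_subtype_val.measurable.aemeasurable hm.aestronglyMeasurable]
        letI iT'w : MeasurableSpace (T6.twCentSub (T6.glAut sw) (locG305 (U.w0 v) δ)) :=
          borel _
        haveI bT'w : BorelSpace (T6.twCentSub (T6.glAut sw) (locG305 (U.w0 v) δ)) := ⟨rfl⟩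
        have hl := H269.integral_link_cu269 (L.μt v) μt'
          (fun t => Matrix.GeneralLinearGroup.map i
            (t : GL (Fin 2) (v.adicCompletion ℚ)))
          (fun t => (t : GL (Fin 2) ((U.w0 v).adicCompletion F)))
          (hci.comp continuous_subtype_val).measurable
          continuous_subtype_val.measurable
          (fun A hA => inertLink913 hT6 v (U.w0 v) D.l e i sw hext _ _ (hreg v) hnorm
            (L.μt v) μt' (hL.tor v) htor A hA)
          (fun y => U.bet v (y * finGL305 (U.w0 v) x'))
          (hcut.1.comp (continuous_mul_const _)).measurable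
        rw [← hl]
        exact hcut.2.2 _
      · intro t
        have h1 : finGL305 (U.w0 v) (Matrix.GeneralLinearGroup.map ι t)
            = Matrix.GeneralLinearGroup.map i (finGL305 v t) :=
          H269.glMap_comm_cu269 _ _ _ _ (fun x => by rw [hio', hii]) t
        rw [map_mul, h1]
    · -- `v` splits
      obtain ⟨hl, w, i, hw0, hlev, hβ, hpo, hrel, hne, hri, hval, hJ⟩ := hsp
      obtain ⟨e', i', he', hri', hval', hio'⟩ := hι.fin v (w 0) (hpo 0)
      have hii : ∀ c, i' c
          = ((i 0 : v.adicCompletion ℚ ≃+* (w 0).adicCompletion F) :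
              v.adicCompletion ℚ →+* (w 0).adicCompletion F) c :=
        H1G.eq_of_val_of_rat_H1G v i'
          ((i 0 : v.adicCompletion ℚ ≃+* (w 0).adicCompletion F) :
              v.adicCompletion ℚ →+* (w 0).adicCompletion F) e' 1 he' one_pos hval'
          (fun c => by rw [pow_one]; exact hval 0 c)
          (fun y => by rw [hri']; exact (hri 0 y).symm)
      have hcs : Continuous (Matrix.GeneralLinearGroup.map (n := Fin 2)
          (((i 0).symm : (w 0).adicCompletion F ≃+* _) :
            (w 0).adicCompletion F →+* v.adicCompletion ℚ)) := by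
        refine H269.continuous_glMap_cu269 _
          (H269.continuous_of_val_cu269 _ 1 one_pos fun y => ?_)
        have h := hval 0 ((i 0).symm y)
        rw [RingEquiv.apply_symm_apply] at h
        rw [pow_one]
        exact h.symm
      have hm : Measurable (fun y : GL (Fin 2) (v.adicCompletion ℚ) =>
          L.βv v (y * Matrix.GeneralLinearGroup.map
            (((i 0).symm : (w 0).adicCompletion F ≃+* _) :
              (w 0).adicCompletion F →+* v.adicCompletion ℚ) (finGL305 (w 0) x'))) :=
        ((hL.cut v).1.comp (continuous_mul_const _)).measurable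
      refine ⟨?_, fun y => L.βv v (y * Matrix.GeneralLinearGroup.map
            (((i 0).symm : (w 0).adicCompletion F ≃+* _) :
              (w 0).adicCompletion F →+* v.adicCompletion ℚ) (finGL305 (w 0) x')), hm, ?_, ?_⟩
      · have e : (fun y : G F => U.bet v (finGL305 (U.w0 v) y))
            = fun y => L.βv v (Matrix.GeneralLinearGroup.map
              (((i 0).symm : (w 0).adicCompletion F ≃+* _) :
                (w 0).adicCompletion F →+* v.adicCompletion ℚ) (finGL305 (w 0) y)) :=
          funext hβ
        rw [e]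
        exact (hL.cut v).1.comp (hcs.comp (hCK'.1 _))
      · rw [integral_map continuous_subtype_val.measurable.aemeasurable hm.aestronglyMeasurable]
        exact (hL.cut v).2.2 _
      · intro t
        have h1 : finGL305 (w 0) (Matrix.GeneralLinearGroup.map ι t)
            = Matrix.GeneralLinearGroup.map
              ((i 0 : v.adicCompletion ℚ ≃+* (w 0).adicCompletion F) :
                v.adicCompletion ℚ →+* (w 0).adicCompletion F) (finGL305 v t) :=
          H269.glMap_comm_cu269 _ _ _ _ (fun x => by rw [hio', hii]) t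
        rw [hβ, map_mul, map_mul, h1]
        congr 2
        exact H269.glMap_cancel_cu269 _ _ (fun x => RingEquiv.symm_apply_apply _ x) _
  -- the infinite place
  obtain ⟨hβc, hβc0, hβc1, -⟩ := hU.2
  have hca : Continuous (Matrix.GeneralLinearGroup.map (n := Fin 2) (algebraMap ℝ ℂ)) :=
    H269.continuous_glMap_cu269 _ Complex.continuous_ofReal
  have eA : ∀ t : G ℚ, infGL305 U.winf (Matrix.GeneralLinearGroup.map ι t * x')
      = Matrix.GeneralLinearGroup.map (algebraMap ℝ ℂ) (reGLQ298 t) * infGL305 U.winf x' := by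
    intro t
    rw [map_mul]
    congr 1
    exact H269.glMap_comm_cu269 _ _ _ _ (fun x => infHom_iota913 hι U.winf x) t
  obtain ⟨b, hb_def⟩ : ∃ b : GL (Fin 2) ℝ → ℝ, ∀ y, b y =
      U.βc (Matrix.GeneralLinearGroup.map (algebraMap ℝ ℂ) y * infGL305 U.winf x') :=
    ⟨_, fun _ => rfl⟩
  have hb : Measurable b := by
    have e : b = fun y => U.βc (Matrix.GeneralLinearGroup.map (algebraMap ℝ ℂ) y
        * infGL305 U.winf x') := funext hb_def
    rw [e]
    exact (hβc.comp (hca.mul continuous_const)).measurable
  have hb1 : ∫ y, b y ∂(Measure.map Subtype.val L.μtr) = 1 := by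
    rw [integral_map continuous_subtype_val.measurable.aemeasurable hb.aestronglyMeasurable]
    simp only [hb_def]
    exact hβc1 _
  -- Step 1: the function `y ↦ prodCutUpQ (y x')` is Borel
  have hgm : Measurable (fun y : G F => prodCutUpQ S' S cT U (y * x')) := by
    have hOm : MeasurableSet {y : G F | OutT305 S' (y * x')} :=
      ((H942.isOpen_integralOutside942 S').preimage (continuous_mul_const x')).measurableSet
    unfold prodCutUpQ
    refine Measurable.ite hOm ?_ measurable_const
    refine (measurable_const.mul ?_).mul ?_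
    · exact Finset.measurable_prod _ fun v hv =>
        ((hloc v hv).1.comp (continuous_mul_const x')).measurable
    · exact (hβc.comp ((hCK'.2 _).comp (continuous_mul_const x'))).measurable
  -- Step 2: transport to `T_𝔸(γ)`
  have hstep1 : (∫ t : tA305 D.s δ, prodCutUpQ S' S cT U ((t : G F) * x') ∂μT')
      = ∫ t : tA305 (T5.AdelicAut.id ℚ) γ,
          prodCutUpQ S' S cT U (Matrix.GeneralLinearGroup.map ι (t : G ℚ) * x') ∂μT :=
    H269.integral_link_cu269 μT μT' (fun t => Matrix.GeneralLinearGroup.map ι (t : G ℚ))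
      (fun t => (t : G F)) (hιc.comp continuous_subtype_val).measurable
      continuous_subtype_val.measurable (fun A hA => hlink A hA)
      (fun y : G F => prodCutUpQ S' S cT U (y * x')) hgm
  rw [hstep1]
  -- Step 3: the abstract computation downstairs
  have hmap := hconst S hgood
  have hAm : MeasurableSet {t : tA305 (T5.AdelicAut.id ℚ) γ | OutT305 S (t : G ℚ)} :=
    ((H942.isOpen_integralOutside942 S).preimage continuous_subtype_val).measurableSet
  haveI sν : ∀ i : S, SigmaFinite (Measure.map Subtype.val (L.μt i.1)) :=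
    fun i => hHS.2.2.1 i.1 (locG305 i.1 γ) (L.μt i.1) (hL.tor i.1).1
  haveI sρ : SigmaFinite (Measure.map Subtype.val L.μtr) :=
    hHSR.2 (reGLQ298 (T5.ratG γ)) L.μtr hL.torr
  have hφ : Measurable
      (fun t : tA305 (T5.AdelicAut.id ℚ) γ => compSQ298 S (t : G ℚ)) := by
    refine Measurable.prodMk ?_ ?_
    · exact measurable_pi_lambda _ fun i =>
        ((hCK.1 i.1).comp continuous_subtype_val).measurable
    · exact (hRe.comp continuous_subtype_val).measurable
  have hloc' : ∀ i : S, ∃ a : GL (Fin 2) (i.1.adicCompletion ℚ) → ℝ, Measurable a ∧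
      (∫ y, a y ∂(Measure.map Subtype.val (L.μt i.1))) = 1 ∧
      ∀ t : G ℚ, U.bet i.1 (finGL305 (U.w0 i.1) (Matrix.GeneralLinearGroup.map ι t * x'))
        = a (finGL305 i.1 t) := fun i => (hloc i.1 i.2).2
  choose a ha_m ha_1 ha_pt using hloc'
  have key := H385.integral_cut_absQ385 (Y := fun i : S => GL (Fin 2) (i.1.adicCompletion ℚ))
    (Z := GL (Fin 2) ℝ) μT _ hAm _ hφ
    (fun i : S => Measure.map Subtype.val (L.μt i.1)) (Measure.map Subtype.val L.μtr)
    cT hcT hmap a b ha_m hb ha_1 hb1
  rw [← key]
  congr 1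
  funext t
  unfold prodCutUpQ
  by_cases ht : OutT305 S (t : G ℚ)
  · have ht' : OutT305 S' (Matrix.GeneralLinearGroup.map ι (t : G ℚ) * x') :=
      (H385.outT_mul_iff385 hx').2 ((H269.outT_map_iff_cu269 hι hOver _).2 ht)
    rw [if_pos ht', if_pos (show t ∈ {t : tA305 (T5.AdelicAut.id ℚ) γ |
      OutT305 S (t : G ℚ)} from ht)]
    have hprod : (∏ v ∈ S, U.bet v (finGL305 (U.w0 v)
          (Matrix.GeneralLinearGroup.map ι (t : G ℚ) * x')))
        = ∏ i : S, a i ((compSQ298 S (t : G ℚ)).1 i) := by
      rw [← Finset.prod_coe_sort S (fun v => U.bet v (finGL305 (U.w0 v)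
          (Matrix.GeneralLinearGroup.map ι (t : G ℚ) * x')))]
      exact Finset.prod_congr rfl fun i _ => ha_pt i _
    rw [hprod, eA, hb_def]
    rfl
  · have ht' : ¬ OutT305 S' (Matrix.GeneralLinearGroup.map ι (t : G ℚ) * x') :=
      fun h => ht ((H269.outT_map_iff_cu269 hι hOver _).1 ((H385.outT_mul_iff385 hx').1 h))
    rw [if_neg ht', if_neg (show ¬ t ∈ {t : tA305 (T5.AdelicAut.id ℚ) γ |
      OutT305 S (t : G ℚ)} from ht)]

end Fermat.Agent.LT.T7.H913

end
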