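import Mathlib
import Fermat.Agent.LT.T7.H913.CutOnUpQTop
import Fermat.Agent.LT.T7.H913.CutOnOutUpQ
import Fermat.Agent.LT.T7.H560.SuppOutUp
import Fermat.Agent.LT.T7.H379.SuppUpQ
import Fermat.Agent.LT.T7.H505.HaarSigma
import Fermat.Agent.LT.T7.H751.LeafQ.HaarSigmaR
import Fermat.Agent.LT.T7.H751.LeafQ.ReCont
import Fermat.Agent.LT.T7.H409.CompCont
import Fermat.Agent.LT.T7.H233.TorComm
import Fermat.Agent.LT.T7.H277.EllReg
import Fermat.Agent.LT.T7.H729.OutOpen
import Fermat.Agent.LT.T7.H102.IsoCont

/-!
# Row LT, tower T7, node `H1U.CutOnUpQC` (registry row 2786, owner helper913): CLOSED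

OFF-MAIN.  ADDITIVE (new names only, suffix `913`).  No hole, nothing assumed.

    cutOnOutUpQC913 (F) : H913.CutOnOutUpQC913 F      (node CU.2, UNCONDITIONAL)
    cutOnUpQC913 (F)    : H1U.CutOnUpQC F             (THE NODE, UNCONDITIONAL, VERBATIM Prop of
                                                       `T7/H1U/UpFactQSpec.lean`, helper1)

Assembly of `cutOnUpQC_of913` (`CutOnUpQTop.lean`) and `cutOnOutUpQC_of913` (`CutOnOutUpQ.lean`)
with the closed leaves: `suppOutUpC560` (helper560), `suppUpQC379` (helper379, leaf CU.1 =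
registry row 2849), `haarSigmaC505` (helper505), `haarSigmaRC751`, `reContQC751` (helper751),
`compContC409` (helper409), `torCommC233` (helper233), `ellRegC277` (helper277), `outOpenC729`
(helper729), `isoContC102` (helper102); inside `cutOnOutUpQC_of913`: `inertTorC276` (helper276),
`cutOnOutUpC269` kit (helper269), `integral_cut_absQ385` (helper385), `eq_of_val_of_rat_H1G`
(helper1).
-/

set_option autoImplicit false

open AutomorphicForm IsDedekindDomain NumberField MeasureTheory

noncomputable section

namespace Fermat.Agent.LT.T7.H913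

open Fermat.Agent.LT Fermat.Agent.LT.T7

/-- **NODE CU.2 `CutOnOutUpQC913`**, unconditional. -/
theorem cutOnOutUpQC913 (F : Type) [Field F] [NumberField F] : CutOnOutUpQC913 F :=
  cutOnOutUpQC_of913 F (H505.haarSigmaC505 ℚ) H751.haarSigmaRC751 (H409.compContC409 ℚ)
    (H409.compContC409 F) H751.reContQC751

/-- **THE NODE U.2 `H1U.CutOnUpQC F`** (Part A upstairs over `ℚ`), unconditional, VERBATIM. -/
theorem cutOnUpQC913 (F : Type) [Field F] [NumberField F] : H1U.CutOnUpQC F :=
  cutOnUpQC_of913 (H560.suppOutUpC560 F) (H379.suppUpQC379 F) (cutOnOutUpQC913 F)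
    (H233.torCommC233 F) (H277.ellRegC277 ℚ F) (OutOpen729.outOpenC729 F)
    (H409.compContC409 F) H102.isoContC102

end Fermat.Agent.LT.T7.H913

end
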